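/-
TEAM CFT -> S55, block [HNQ] (architect helper73): proof of `HPG.Stmt_LayerNorm` (arithmetic half of
the layer step of the Hasse principle) from the Hasse norm theorem `HNT.Stmt_HNTu`.

`A`-adic closeness in `ℚ̄` (`NearA`), dictionary with `HNT.Near`, the approximation lemma
(`Stmt_ApproxNorm`: if `D_A ∩ Gal(ℚ̄/L)` fixes `E ⊇ L` then every element of `Eˣ` is `A`-adically a
limit of norms `N_{E/L}(y)`: it contains both "decomposition fields are dense" and "everything is a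
local norm at a split place"), Galois dictionary.  Definitions and statements-as-Props.
-/
import Fermat.Agent.CFT.HPG.Interface
import Fermat.Agent.CFT.HNT.Interface

set_option autoImplicit false

noncomputable section

namespace Fermat.Agent.CFT.HNQ

open NumberField IsDedekindDomain Fermat.Agent.CFT.Top Fermat.Agent.CFT.GN Fermat.Agent.CFT.HNT
  Fermat.Agent.CFT.HPG

/-- `x ≡ 1 mod qⁿ A`. -/
def NearA (A : ValuationSubring Qb) (q n : ℕ) (x : Qb) : Prop :=
  ∃ t ∈ A, x - 1 = (q : Qb) ^ n * t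

/-- the valuation subring `g⁻¹ A`. -/
def twA (A : ValuationSubring Qb) (g : GQ) : ValuationSubring Qb :=
  A.comap ((g : Qb ≃ₐ[ℚ] Qb) : Qb →+* Qb)

lemma mem_twA {A : ValuationSubring Qb} {g : GQ} {x : Qb} : x ∈ twA A g ↔ g x ∈ A := Iff.rfl

lemma nearA_one (A : ValuationSubring Qb) (q n : ℕ) : NearA A q n 1 :=
  ⟨0, A.zero_mem, by simp⟩

lemma natCast_mem (A : ValuationSubring Qb) (q : ℕ) : (q : Qb) ∈ A := by
  induction q with
  | zero => simp
  | succ n ih => rw [Nat.cast_succ]; exact A.add_mem _ _ ih A.one_mem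

lemma NearA.mul {A : ValuationSubring Qb} {q n : ℕ} {x y : Qb} (hx : NearA A q n x)
    (hy : NearA A q n y) : NearA A q n (x * y) := by
  obtain ⟨t, ht, h1⟩ := hx
  obtain ⟨u, hu, h2⟩ := hy
  refine ⟨(q : Qb) ^ n * t * u + t + u, ?_, ?_⟩
  · exact A.add_mem _ _ (A.add_mem _ _ (A.mul_mem _ _ (A.mul_mem _ _
      (A.pow_mem (natCast_mem A q) n) ht) hu) ht) hu
  · have : x * y - 1 = (x - 1) * (y - 1) + (x - 1) + (y - 1) := by ring
    rw [this, h1, h2]
    ring

lemma NearA.prod {A : ValuationSubring Qb} {q n : ℕ} {ι : Type} (s : Finset ι) (f : ι → Qb)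
    (h : ∀ i ∈ s, NearA A q n (f i)) : NearA A q n (∏ i ∈ s, f i) := by
  classical
  induction s using Finset.induction_on with
  | empty => simpa using nearA_one A q n
  | insert a s ha ih =>
    rw [Finset.prod_insert ha]
    exact (h a (Finset.mem_insert_self a s)).mul
      (ih fun i hi => h i (Finset.mem_insert_of_mem hi))

lemma NearA.mono {A : ValuationSubring Qb} {q m n : ℕ} (hmn : m ≤ n) {x : Qb}
    (hx : NearA A q n x) : NearA A q m x := by
  obtain ⟨t, ht, h1⟩ := hx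
  refine ⟨(q : Qb) ^ (n - m) * t, A.mul_mem _ _ (A.pow_mem (natCast_mem A q) _) ht, ?_⟩
  rw [h1, ← mul_assoc, ← pow_add, Nat.add_sub_cancel' hmn]

lemma nearA_twA {A : ValuationSubring Qb} {q n : ℕ} {g : GQ} {x : Qb} :
    NearA (twA A g) q n x ↔ NearA A q n (g x) := by
  constructor
  · rintro ⟨t, ht, h1⟩
    refine ⟨g t, ht, ?_⟩
    have := congrArg g h1
    simpa using this
  · rintro ⟨t, ht, h1⟩
    refine ⟨g.symm t, by rw [mem_twA]; simpa using ht, ?_⟩
    apply g.injective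
    simpa using h1

open scoped Pointwise in
lemma mem_dec_iff' (A : ValuationSubring Qb) (d : GQ) :
    d ∈ Dec A ↔ ∀ x : Qb, d x ∈ A ↔ x ∈ A := by
  constructor
  · intro hd x
    have hd' : d • A = A := MulAction.mem_stabilizer_iff.mp hd
    constructor
    · intro hx
      have h1 : d • x ∈ d • A := by rw [hd']; exact hx
      exact (ValuationSubring.smul_mem_pointwise_smul_iff).mp h1
    · intro hx
      have h1 : d • x ∈ d • A := ValuationSubring.smul_mem_pointwise_smul d x A hx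
      rw [hd'] at h1
      exact h1
  · intro h
    show d ∈ MulAction.stabilizer _ A
    rw [MulAction.mem_stabilizer_iff]
    apply le_antisymm
    · rw [ValuationSubring.pointwise_smul_subset_iff]
      intro x hx
      rw [ValuationSubring.mem_inv_pointwise_smul_iff]
      exact (h x).mpr hx
    · intro x hx
      rw [ValuationSubring.mem_pointwise_smul_iff_inv_smul_mem]
      apply (h _).mp
      show d (d⁻¹ x) ∈ A
      have : d (d⁻¹ x) = x := by
        show (d * d⁻¹) x = x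
        rw [mul_inv_cancel]
        rfl
      rw [this]
      exact hx

lemma mem_dec_iff {A : ValuationSubring Qb} {d : GQ} (hd : d ∈ Dec A) (x : Qb) :
    d x ∈ A ↔ x ∈ A := (mem_dec_iff' A d).1 hd x

lemma NearA.map_dec {A : ValuationSubring Qb} {q n : ℕ} {d : GQ} (hd : d ∈ Dec A) {x : Qb}
    (hx : NearA A q n x) : NearA A q n (d x) := by
  obtain ⟨t, ht, h1⟩ := hx
  refine ⟨d t, (mem_dec_iff hd t).2 ht, ?_⟩
  have := congrArg d h1
  simpa using this

/-! ### Packages -/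

/-- Q1. dictionary `HNT.Near v` (number field `k ⊆ ℚ̄`) <-> `NearA A`, for `A` over `v`. -/
def Stmt_NearDict : Prop :=
  ∀ (k : IF) [NumberField k] (A : ValuationSubring Qb) (v : Pl k) (q : ℕ), q.Prime →
    A.LiesOverPrime q → Over A v →
    (∀ n : ℕ, ∃ m : ℕ, ∀ x : k, Near v m x → NearA A q n (x : Qb)) ∧
    (∀ (n : ℕ) (x : k), NearA A q n (x : Qb) → Near v n x)

/-- Q1'. `NearA` is stable under inverses. -/
def Stmt_NearInv : Prop :=
  ∀ (A : ValuationSubring Qb) (q n : ℕ), A.LiesOverPrime q → ∀ x : Qb, NearA A q (n + 1) x →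
    NearA A q (n + 1) x⁻¹

/-- Q2a. every `L`-embedding of `E` into `ℚ̄` is induced by an element of `Gal(ℚ̄/L)`. -/
def Stmt_LiftEmb : Prop :=
  ∀ (L : IF) (E : IntermediateField L Qb) (σ : E →ₐ[L] Qb),
    ∃ g ∈ L.fixingSubgroup, ∀ x : E, g (x : Qb) = σ x

/-- Q2b. if `A` and `g⁻¹ A` induce the same place of `Z` then `g ∈ D_A · Gal(ℚ̄/Z)`. -/
def Stmt_Sep : Prop :=
  ∀ (Z : IF) [NumberField Z] (A : ValuationSubring Qb) (g : GQ) (v : Pl Z), Over A v →
    Over (twA A g) v → ∃ u ∈ Z.fixingSubgroup, u * g⁻¹ ∈ Dec A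

/-- Q2c. weak approximation in `A`-adic form: `y ≈ z` at `A` and `y ≈ 1` at the places `gᵢ⁻¹ A`, which
induce on `Z` places different from the one induced by `A`. -/
def Stmt_WeakA : Prop :=
  ∀ (Z : IF) [NumberField Z] (A : ValuationSubring Qb) (q : ℕ), q.Prime → A.LiesOverPrime q →
    ∀ (ι : Type) [Finite ι] (g : ι → GQ),
    (∀ (i : ι) (v : Pl Z), Over A v → ¬ Over (twA A (g i)) v) →
    ∀ z : Z, z ≠ 0 → ∀ n : ℕ, ∃ y : Z, y ≠ 0 ∧ NearA A q n ((y : Qb) / (z : Qb)) ∧
      ∀ i, NearA A q n (g i (y : Qb))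

/-- Q2. **the approximation lemma.**  `L ⊆ E ⊆ ℚ̄` number fields; if `D_A ∩ Gal(ℚ̄/L)` fixes `E`
pointwise, then every `z ∈ Eˣ` is `A`-adically approximable by norms `N_{E/L}(y)`, `y ∈ Eˣ`. -/
def Stmt_ApproxNorm : Prop :=
  ∀ (L : IF) [NumberField L] (E : IntermediateField L Qb) [FiniteDimensional L E]
    (A : ValuationSubring Qb) (q : ℕ), q.Prime → A.LiesOverPrime q →
    (∀ d ∈ Dec A, d ∈ L.fixingSubgroup → ∀ x ∈ E, d x = x) →
    ∀ z : E, z ≠ 0 → ∀ n : ℕ, ∃ y : E, y ≠ 0 ∧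
      NearA A q n ((z : Qb) / algebraMap L Qb (Algebra.norm L y))

/-- Q3. Galois dictionary for a cyclic layer of degree `p`. -/
def Stmt_GalDict : Prop :=
  ∀ (p : ℕ) (K L : IF) (h : K ≤ L) (s₀ : GQ), p.Prime → FiniteDimensional ℚ L →
    (∀ g ∈ K.fixingSubgroup, ∀ n ∈ L.fixingSubgroup, g * n * g⁻¹ ∈ L.fixingSubgroup) →
    s₀ ∈ K.fixingSubgroup → s₀ ∉ L.fixingSubgroup → s₀ ^ p ∈ L.fixingSubgroup →
    (∀ g ∈ K.fixingSubgroup, ∃ i : ℕ, (s₀ ^ i)⁻¹ * g ∈ L.fixingSubgroup) →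
    IsGalois K (IntermediateField.extendScalars h) ∧
    Module.finrank K (IntermediateField.extendScalars h) = p ∧
    ∀ s ∈ K.fixingSubgroup, s₀⁻¹ * s ∈ L.fixingSubgroup →
      ∀ y : IntermediateField.extendScalars h,
        algebraMap K Qb (Algebra.norm K y) = ∏ i ∈ Finset.range p, (s ^ i) (y : Qb)

/-- Q4. a number field containing `μ_p`, `p` odd, is totally complex. -/
def Stmt_TotCplx : Prop :=
  ∀ (p : ℕ) (K : IF) [NumberField K] (ζ : Qb), p.Prime → p ≠ 2 → IsPrimitiveRoot ζ p → ζ ∈ K →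
    IsTotallyComplex K

/-- Q5. open subgroups of `G_ℚ` are the Galois groups of number fields. -/
def Stmt_OpenFix : Prop :=
  ∀ N : Subgroup GQ, (∃ F : IF, FiniteDimensional ℚ F ∧ F.fixingSubgroup ≤ N) →
    FiniteDimensional ℚ (IntermediateField.fixedField N) ∧
      (IntermediateField.fixedField N).fixingSubgroup = N

/-- Q6. pure group theory: if no element of `D ∩ HH` is congruent to the generator `s₀` of `HH/NN`
(of prime order), then `D ∩ HH ≤ NN`. -/
def Stmt_GrpSplit : Prop :=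
  ∀ (G : Type) [Group G] (p : ℕ) (HH NN D : Subgroup G) (s₀ : G), p.Prime → NN ≤ HH →
    (∀ h ∈ HH, ∀ n ∈ NN, h * n * h⁻¹ ∈ NN) → s₀ ∈ HH → s₀ ^ p ∈ NN →
    (∀ h ∈ HH, ∃ i : ℕ, (s₀ ^ i)⁻¹ * h ∈ NN) →
    (∀ s ∈ D, s ∈ HH → s₀⁻¹ * s ∉ NN) → ∀ d ∈ D, d ∈ HH → d ∈ NN

/-- **The Hasse norm theorem**, place by place form (= `HNT.Stmt_HNTu`, proved in `HNT/Final.lean`;
restated here to keep the imports of the packages small). -/
def Stmt_HNTu : Prop :=
  ∀ (p : ℕ) (K M : Type) [Field K] [NumberField K] [Field M] [NumberField M] [Algebra K M]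
    [IsGalois K M], p.Prime → Module.finrank K M = p → IsTotallyComplex K →
    ∀ b : K, b ≠ 0 → (∀ v : Pl K, IsApproxNorm K M v b) → ∃ β : M, Algebra.norm K β = b

end Fermat.Agent.CFT.HNQ

end
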