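/-
TEAM CFT -> S55, block [HNQ], package Q2 (helper53): the approximation lemma.
-/
import Fermat.Agent.CFT.HNQ.Interface

set_option autoImplicit false

noncomputable section

namespace Fermat.Agent.CFT.HNQ

open NumberField IsDedekindDomain Fermat.Agent.CFT.Top Fermat.Agent.CFT.GN Fermat.Agent.CFT.HNT
  Fermat.Agent.CFT.HPG

/-- **Q2.** -/
theorem approxNorm (h1 : Stmt_LiftEmb) (h2 : Stmt_Sep) (h3 : Stmt_WeakA) (h4 : Stmt_NearInv) :
    Stmt_ApproxNorm := by
  classical
  intro L _ E _ A q hq hA hfix z hz n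
  let Z : IF := E.restrictScalars ℚ
  have hEfd : FiniteDimensional ℚ E := Module.Finite.trans L E
  have hZfd : FiniteDimensional ℚ Z := hEfd
  have hZ : NumberField Z := { to_charZero := inferInstance, to_finiteDimensional := hZfd }
  have hLZ : L ≤ Z := by
    intro x hx
    exact E.algebraMap_mem ⟨x, hx⟩
  choose g hgL hg using fun σ : E →ₐ[L] Qb => h1 L E σ
  have hsep : ∀ (i : {σ : E →ₐ[L] Qb // σ ≠ E.val}) (v : Pl Z), Over A v →
      ¬ Over (twA A (g i.1)) v := by
    intro σ v hv hv'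
    obtain ⟨u, hu, hud⟩ := h2 Z A (g σ.1) v hv hv'
    have huL : u ∈ L.fixingSubgroup := IntermediateField.fixingSubgroup_antitone hLZ hu
    have h5 := hfix _ hud (mul_mem huL (inv_mem (hgL σ.1)))
    apply σ.2
    ext x
    have hux : u (x : Qb) = x := (IntermediateField.mem_fixingSubgroup_iff Z u).1 hu x x.2
    have h6 : u ((g σ.1)⁻¹ (x : Qb)) = x := h5 x x.2
    have h7 : (g σ.1)⁻¹ (x : Qb) = x := u.injective (h6.trans hux.symm)
    have h8 : g σ.1 (x : Qb) = x := by
      conv_lhs => rw [← h7]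
      change (g σ.1 * (g σ.1)⁻¹) (x : Qb) = x
      rw [mul_inv_cancel]
      rfl
    rw [← hg, h8]
    rfl
  have hz' : (⟨z.1, z.2⟩ : Z) ≠ 0 := by
    intro h
    apply hz
    apply Subtype.ext
    exact congrArg Subtype.val h
  obtain ⟨y, hy0, hyz, hyg⟩ := h3 Z A q hq hA {σ : E →ₐ[L] Qb // σ ≠ E.val} (fun i => g i.1) hsep
    ⟨z.1, z.2⟩ hz' (n + 1)
  let y' : E := ⟨y.1, y.2⟩
  have hy' : y' ≠ 0 := by
    intro h
    apply hy0
    apply Subtype.ext
    exact congrArg Subtype.val h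
  refine ⟨y', hy', ?_⟩
  have hnorm : algebraMap L Qb (Algebra.norm L y') = ∏ σ : E →ₐ[L] Qb, σ y' :=
    Algebra.norm_eq_prod_embeddings L Qb y'
  have hsplit : (∏ σ : E →ₐ[L] Qb, σ y')
      = (y : Qb) * ∏ σ ∈ (Finset.univ : Finset (E →ₐ[L] Qb)).erase E.val, σ y' :=
    (Finset.mul_prod_erase Finset.univ (fun σ : E →ₐ[L] Qb => σ y') (Finset.mem_univ E.val)).symm
  have hprod : NearA A q (n + 1)
      (∏ σ ∈ (Finset.univ : Finset (E →ₐ[L] Qb)).erase E.val, σ y') := by
    apply NearA.prod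
    intro σ hσ
    have hne : σ ≠ E.val := Finset.ne_of_mem_erase hσ
    have := hyg ⟨σ, hne⟩
    rw [← hg σ y']
    exact this
  have h9 : NearA A q (n + 1) (algebraMap L Qb (Algebra.norm L y') / (z : Qb)) := by
    rw [hnorm, hsplit, mul_div_right_comm]
    exact hyz.mul hprod
  have h10 := h4 A q n hA _ h9
  rw [inv_div] at h10
  exact h10.mono (Nat.le_succ n)

end Fermat.Agent.CFT.HNQ

end
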