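/-
TEAM CFT -> S55, block [HNQ], package Q3 (helper60): Galois dictionary of a cyclic layer of degree `p`.
-/
import Fermat.Agent.CFT.HNQ.Interface

set_option autoImplicit false

noncomputable section

namespace Fermat.Agent.CFT.HNQ

open NumberField IsDedekindDomain Fermat.Agent.CFT.Top Fermat.Agent.CFT.GN Fermat.Agent.CFT.HNT
  Fermat.Agent.CFT.HPG

lemma GalDict_isAlgebraic : Algebra.IsAlgebraic ℚ Qb := AlgebraicClosure.isAlgebraic ℚ

lemma GalDict_normal : Normal ℚ Qb := by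
  have : Algebra.IsAlgebraic ℚ Qb := AlgebraicClosure.isAlgebraic ℚ
  have : IsAlgClosure ℚ Qb := ⟨inferInstance, inferInstance⟩
  exact IsAlgClosure.normal ℚ Qb

lemma GalDict_isGalois : IsGalois ℚ Qb := by
  have := GalDict_isAlgebraic
  have := GalDict_normal
  exact ⟨⟩

/-- (1) `Gal(ℚ̄/K)` stabilises `L`. -/
lemma GalDict_map_mem (K L : IF)
    (hn : ∀ g ∈ K.fixingSubgroup, ∀ n ∈ L.fixingSubgroup, g * n * g⁻¹ ∈ L.fixingSubgroup)
    {g : GQ} (hg : g ∈ K.fixingSubgroup) {x : Qb} (hx : x ∈ L) : g x ∈ L := by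
  have := GalDict_isGalois
  rw [← InfiniteGalois.fixedField_fixingSubgroup L, IntermediateField.mem_fixedField_iff]
  intro n hnL
  have h1 := hn g⁻¹ (inv_mem hg) n hnL
  rw [inv_inv] at h1
  have h2 := (IntermediateField.mem_fixingSubgroup_iff L _).1 h1 x hx
  have h3 : g ((g⁻¹ * n * g) x) = n (g x) := by
    show (g * (g⁻¹ * n * g)) x = (n * g) x
    congr 1
    group
  rw [← h3, h2]

lemma GalDict_pow_map_mem (K L : IF)
    (hn : ∀ g ∈ K.fixingSubgroup, ∀ n ∈ L.fixingSubgroup, g * n * g⁻¹ ∈ L.fixingSubgroup)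
    {g : GQ} (hg : g ∈ K.fixingSubgroup) (i : ℕ) {x : Qb} (hx : x ∈ L) : (g ^ i) x ∈ L :=
  GalDict_map_mem K L hn (pow_mem hg i) hx

/-- (5) the powers of `s` and of `s₀` agree on `L`. -/
lemma GalDict_pow_eq (K L : IF)
    (hn : ∀ g ∈ K.fixingSubgroup, ∀ n ∈ L.fixingSubgroup, g * n * g⁻¹ ∈ L.fixingSubgroup)
    {s₀ s : GQ} (hs₀ : s₀ ∈ K.fixingSubgroup) (hs : s₀⁻¹ * s ∈ L.fixingSubgroup) (i : ℕ)
    {y : Qb} (hy : y ∈ L) : (s ^ i) y = (s₀ ^ i) y := by
  induction i with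
  | zero => simp
  | succ i ih =>
    rw [pow_succ', pow_succ']
    show s ((s ^ i) y) = s₀ ((s₀ ^ i) y)
    rw [ih]
    have h1 := (IntermediateField.mem_fixingSubgroup_iff L _).1 hs _
      (GalDict_pow_map_mem K L hn hs₀ i hy)
    have h2 : s₀ ((s₀⁻¹ * s) ((s₀ ^ i) y)) = s ((s₀ ^ i) y) := by
      show (s₀ * (s₀⁻¹ * s)) ((s₀ ^ i) y) = s ((s₀ ^ i) y)
      rw [mul_inv_cancel_left]
    rw [← h2, h1]

/-- pure group theory: `s ^ d ∈ H`, `s ^ p ∈ H`, `0 < d < p` prime, then `s ∈ H`. -/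
lemma GalDict_mem_of_pow {G : Type*} [Group G] (H : Subgroup G) (s : G) (p d : ℕ) (hp : p.Prime)
    (hd0 : 0 < d) (hdp : d < p) (h1 : s ^ d ∈ H) (h2 : s ^ p ∈ H) : s ∈ H := by
  have hcop : Nat.Coprime d p := (Nat.coprime_of_lt_prime hd0.ne' hdp hp).symm
  have hb := Nat.gcd_eq_gcd_ab d p
  rw [hcop.gcd_eq_one] at hb
  have h3 : s = (s ^ d) ^ (Nat.gcdA d p) * (s ^ p) ^ (Nat.gcdB d p) := by
    rw [← zpow_natCast s d, ← zpow_natCast s p, ← zpow_mul, ← zpow_mul, ← zpow_add, ← hb]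
    simp
  rw [h3]
  exact mul_mem (zpow_mem h1 _) (zpow_mem h2 _)

/-- the restriction to `E = L / K` of an element of `Gal(ℚ̄/K)`. -/
def GalDict_res {K L : IF} (h : K ≤ L) (g : K.fixingSubgroup) :
    IntermediateField.extendScalars h →ₐ[K] Qb :=
  ((IntermediateField.fixingSubgroupEquiv K g : Qb ≃ₐ[K] Qb) : Qb →ₐ[K] Qb).comp
    (IntermediateField.extendScalars h).val

lemma GalDict_res_apply {K L : IF} (h : K ≤ L) (g : K.fixingSubgroup)
    (y : IntermediateField.extendScalars h) : GalDict_res h g y = (g : GQ) (y : Qb) := rfl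

/-- every `K`-embedding of `E` is the restriction of an element of `Gal(ℚ̄/K)`. -/
lemma GalDict_res_surj {K L : IF} (h : K ≤ L)
    (σ : IntermediateField.extendScalars h →ₐ[K] Qb) :
    ∃ g : K.fixingSubgroup, GalDict_res h g = σ := by
  have := GalDict_normal
  have : Normal K Qb := Normal.tower_top_of_normal ℚ K Qb
  let τ : Qb →ₐ[K] Qb := σ.liftNormal Qb
  let τ' : Qb ≃ₐ[K] Qb := AlgEquiv.ofBijective τ (Algebra.IsAlgebraic.algHom_bijective τ)
  refine ⟨(IntermediateField.fixingSubgroupEquiv K).symm τ', ?_⟩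
  ext y
  rw [GalDict_res_apply]
  have h1 := AlgHom.liftNormal_commutes σ Qb y
  exact h1

lemma GalDict_finite {K L : IF} (h : K ≤ L) (hfd : FiniteDimensional ℚ L) :
    FiniteDimensional K (IntermediateField.extendScalars h) := by
  let f : L →ₗ[ℚ] IntermediateField.extendScalars h :=
    { toFun := fun x => ⟨x.1, (IntermediateField.mem_extendScalars h).2 x.2⟩
      map_add' := fun _ _ => rfl
      map_smul' := fun _ _ => rfl }
  have hf : Function.Surjective f := fun y =>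
    ⟨⟨y.1, (IntermediateField.mem_extendScalars h).1 y.2⟩, rfl⟩
  have : Module.Finite ℚ (IntermediateField.extendScalars h) := Module.Finite.of_surjective f hf
  exact Module.Finite.of_restrictScalars_finite ℚ K _

/-- the parametrisation `i ↦ s₀ ^ i |_E` of the `K`-embeddings of `E`. -/
def GalDict_par {K L : IF} (h : K ≤ L) (s₀ : GQ) (hs₀ : s₀ ∈ K.fixingSubgroup) (p : ℕ)
    (i : Fin p) : IntermediateField.extendScalars h →ₐ[K] Qb :=
  GalDict_res h ⟨s₀ ^ (i : ℕ), pow_mem hs₀ _⟩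

lemma GalDict_par_apply {K L : IF} (h : K ≤ L) (s₀ : GQ) (hs₀ : s₀ ∈ K.fixingSubgroup) (p : ℕ)
    (i : Fin p) (y : IntermediateField.extendScalars h) :
    GalDict_par h s₀ hs₀ p i y = (s₀ ^ (i : ℕ)) (y : Qb) := rfl

lemma GalDict_par_bij (p : ℕ) (K L : IF) (h : K ≤ L) (s₀ : GQ) (hp : p.Prime)
    (hs₀ : s₀ ∈ K.fixingSubgroup) (hs₀L : s₀ ∉ L.fixingSubgroup)
    (hs₀p : s₀ ^ p ∈ L.fixingSubgroup)
    (hgen : ∀ g ∈ K.fixingSubgroup, ∃ i : ℕ, (s₀ ^ i)⁻¹ * g ∈ L.fixingSubgroup) :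
    Function.Bijective (GalDict_par h s₀ hs₀ p) := by
  constructor
  · -- injectivity
    have key : ∀ i j : Fin p, (i : ℕ) < j → GalDict_par h s₀ hs₀ p i ≠ GalDict_par h s₀ hs₀ p j := by
      intro i j hij heq
      apply hs₀L
      refine GalDict_mem_of_pow _ s₀ p ((j : ℕ) - i) hp (by omega) (by have := j.2; omega) ?_ hs₀p
      rw [IntermediateField.mem_fixingSubgroup_iff]
      intro x hx
      have h1 := DFunLike.congr_fun heq ⟨x, (IntermediateField.mem_extendScalars h).2 hx⟩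
      rw [GalDict_par_apply, GalDict_par_apply] at h1
      have h2 : (s₀ ^ (j : ℕ)) x = (s₀ ^ (i : ℕ)) ((s₀ ^ ((j : ℕ) - i)) x) := by
        show (s₀ ^ (j : ℕ)) x = (s₀ ^ (i : ℕ) * s₀ ^ ((j : ℕ) - i)) x
        rw [← pow_add, Nat.add_sub_cancel' hij.le]
      exact ((s₀ ^ (i : ℕ)).injective (h1.trans h2)).symm
    intro i j heq
    rcases lt_trichotomy (i : ℕ) j with hlt | he | hlt
    · exact absurd heq (key i j hlt)
    · exact Fin.ext he
    · exact absurd heq.symm (key j i hlt)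
  · -- surjectivity
    intro σ
    obtain ⟨g, rfl⟩ := GalDict_res_surj h σ
    obtain ⟨i, hi⟩ := hgen g g.2
    have hp0 : 0 < p := hp.pos
    refine ⟨⟨i % p, Nat.mod_lt _ hp0⟩, ?_⟩
    ext y
    rw [GalDict_par_apply, GalDict_res_apply]
    have hy : (y : Qb) ∈ L := (IntermediateField.mem_extendScalars h).1 y.2
    -- `g y = s₀ ^ i y`
    have h1 := (IntermediateField.mem_fixingSubgroup_iff L _).1 hi _ hy
    have h2 : (g : GQ) (y : Qb) = (s₀ ^ i) (((s₀ ^ i)⁻¹ * (g : GQ)) (y : Qb)) := by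
      show (g : GQ) (y : Qb) = (s₀ ^ i * ((s₀ ^ i)⁻¹ * (g : GQ))) (y : Qb)
      rw [mul_inv_cancel_left]
    rw [h2, h1]
    -- `s₀ ^ i y = s₀ ^ (i % p) y`
    have h3 : (s₀ ^ p) ^ (i / p) ∈ L.fixingSubgroup := pow_mem hs₀p _
    have h4 := (IntermediateField.mem_fixingSubgroup_iff L _).1 h3 _ hy
    have h5 : (s₀ ^ i) (y : Qb) = (s₀ ^ (i % p)) (((s₀ ^ p) ^ (i / p)) (y : Qb)) := by
      show (s₀ ^ i) (y : Qb) = (s₀ ^ (i % p) * (s₀ ^ p) ^ (i / p)) (y : Qb)
      rw [← pow_mul, ← pow_add, Nat.mod_add_div]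
    rw [h5, h4]

/-- **Q3**. Galois dictionary for a cyclic layer of degree `p`. -/
theorem galDict : Stmt_GalDict := by
  intro p K L h s₀ hp hfd hn hs₀ hs₀L hs₀p hgen
  have hfin := GalDict_finite h hfd
  have hbij := GalDict_par_bij p K L h s₀ hp hs₀ hs₀L hs₀p hgen
  have := GalDict_normal
  have hnK : Normal K Qb := Normal.tower_top_of_normal ℚ K Qb
  have hnorm : Normal K (IntermediateField.extendScalars h) := by
    rw [IntermediateField.normal_iff_forall_map_le']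
    intro σ x hx
    obtain ⟨y, hy, rfl⟩ := (IntermediateField.mem_map _).1 hx
    rw [IntermediateField.mem_extendScalars h]
    have hg := ((IntermediateField.fixingSubgroupEquiv K).symm σ).2
    exact GalDict_map_mem K L hn hg ((IntermediateField.mem_extendScalars h).1 hy)
  refine ⟨⟨⟩, ?_, ?_⟩
  · rw [← AlgHom.card K (IntermediateField.extendScalars h) Qb,
      ← Fintype.card_congr (Equiv.ofBijective _ hbij), Fintype.card_fin]
  · intro s hs hss₀ y
    have hy : (y : Qb) ∈ L := (IntermediateField.mem_extendScalars h).1 y.2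
    rw [Algebra.norm_eq_prod_embeddings K Qb y,
      ← Fintype.prod_equiv (Equiv.ofBijective _ hbij) (fun i => (s ^ (i : ℕ)) (y : Qb)) _
        (fun i => ?_), Finset.prod_range (fun i => (s ^ i) (y : Qb))]
    rw [Equiv.ofBijective_apply, GalDict_par_apply]
    exact GalDict_pow_eq K L hn hs₀ hss₀ _ hy

end Fermat.Agent.CFT.HNQ

end
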