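/-
TEAM CFT -> S55, block [HNQ] (helper73): assembly, all packages => `HPG.Stmt_LayerNorm`.
-/
import Fermat.Agent.CFT.HNQ.Interface
import Fermat.Agent.CFT.GN.DictAB

set_option autoImplicit false

namespace Fermat.Agent.CFT.HNQ

open NumberField IsDedekindDomain Fermat.Agent.CFT.Top Fermat.Agent.CFT.GN Fermat.Agent.CFT.HNT
  Fermat.Agent.CFT.HPG

/-- elements fixing `L` and `b` fix `L(b)`. -/
lemma layerNorm_fix_adjoin (L : IF) (b : Qb) (d : GQ) (hd : d ∈ L.fixingSubgroup) (hb : d b = b) :
    ∀ x ∈ IntermediateField.adjoin L {b}, d x = x := by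
  intro x hx
  induction hx using IntermediateField.adjoin_induction with
  | mem x hx =>
    rw [Set.mem_singleton_iff] at hx
    rw [hx, hb]
  | algebraMap x => exact (IntermediateField.mem_fixingSubgroup_iff L d).1 hd x x.2
  | add x y _ _ hx hy => rw [map_add, hx, hy]
  | inv x _ hx => rw [map_inv₀, hx]
  | mul x y _ _ hx hy => rw [map_mul, hx, hy]

theorem layerNorm (hN : Stmt_NearDict) (hA : Stmt_ApproxNorm) (hG : Stmt_GalDict)
    (hT : Stmt_TotCplx) (hO : Stmt_OpenFix) (hS : Stmt_GrpSplit) (hH : Stmt_HNTu) :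
    HPG.Stmt_LayerNorm := by
  intro p HH NN ζ s₀ hp hp2 hNH hF hnorm hs0H hs0N hs0p hgen hζ hζfix a ha hloc
  obtain ⟨F, hFfd, hFN⟩ := hF
  obtain ⟨hLfd, hLfix⟩ := hO NN ⟨F, hFfd, hFN⟩
  obtain ⟨hKfd, hKfix⟩ := hO HH ⟨F, hFfd, hFN.trans hNH⟩
  set K : IF := IntermediateField.fixedField HH with hK
  set L : IF := IntermediateField.fixedField NN with hL
  have hKL : K ≤ L := by
    intro x hx
    rw [hL, IntermediateField.mem_fixedField_iff]
    rw [hK, IntermediateField.mem_fixedField_iff] at hx
    exact fun n hn => hx n (hNH hn)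
  have : NumberField K := { to_charZero := inferInstance, to_finiteDimensional := hKfd }
  have : NumberField L := { to_charZero := inferInstance, to_finiteDimensional := hLfd }
  obtain ⟨hGal, hdeg, hnf⟩ := hG p K L hKL s₀ hp hLfd
    (by rw [hKfix, hLfix]; exact hnorm) (by rw [hKfix]; exact hs0H) (by rw [hLfix]; exact hs0N)
    (by rw [hLfix]; exact hs0p) (by rw [hKfix, hLfix]; exact hgen)
  set E : IntermediateField K Qb := IntermediateField.extendScalars hKL with hE
  have : FiniteDimensional K E := Module.finite_of_finrank_pos (by rw [hdeg]; exact hp.pos)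
  have : NumberField E :=
    { to_charZero := inferInstance, to_finiteDimensional := Module.Finite.trans K E }
  have : Module.Free K E := Module.Free.of_divisionRing _ _
  have hTC : IsTotallyComplex K := hT p K ζ hp hp2 hζ (by
    rw [hK, IntermediateField.mem_fixedField_iff]
    exact hζfix)
  have haK : (a : Qb) ∈ K := by
    rw [hK, IntermediateField.mem_fixedField_iff]
    exact ha
  set aK : K := ⟨(a : Qb), haK⟩ with haKdef
  have haK0 : aK ≠ 0 := by
    intro h
    exact a.ne_zero (congrArg Subtype.val h)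
  have hlocal : ∀ v : Pl K, IsApproxNorm K E v aK := by
    intro v n
    obtain ⟨A, hAv⟩ := (dictA K).1 v
    obtain ⟨q, hq, hqv⟩ := (dictA K).2.2.1 v
    have hAq : A.LiesOverPrime q := by
      have := (hAv (q : 𝓞 K)).1 hqv
      show (q : Qb) ∈ A.nonunits
      simpa using this
    obtain ⟨-, hNb⟩ := hN K A v q hq hAq hAv
    by_cases hs : ∃ s ∈ Dec A, s ∈ HH ∧ s₀⁻¹ * s ∈ NN
    · obtain ⟨s, hsD, hsH, hsN⟩ := hs
      obtain ⟨b, hbfix, hab⟩ := hloc q hq A hAq s hsD hsH hsN
      let Z : IntermediateField L Qb := IntermediateField.adjoin L {(b : Qb)}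
      have : FiniteDimensional L Z :=
        IntermediateField.adjoin.finiteDimensional
          (IsIntegral.tower_top
            ((AlgebraicClosure.isAlgebraic ℚ).isAlgebraic (b : Qb)).isIntegral)
      have : Module.Free L Z := Module.Free.of_divisionRing _ _
      obtain ⟨y, hy0, hy⟩ := hA L Z A q hq hAq
        (fun d hd hdL => layerNorm_fix_adjoin L b d hdL (hbfix d hd (by rw [← hLfix]; exact hdL)))
        ⟨b, IntermediateField.mem_adjoin_simple_self L _⟩
        (by intro h; exact b.ne_zero (congrArg Subtype.val h)) n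
      set β' : L := Algebra.norm L y with hβ'
      have hβ0 : β' ≠ 0 := Algebra.norm_ne_zero_iff.2 hy0
      let βE : E := ⟨(β' : Qb), (IntermediateField.mem_extendScalars hKL).2 β'.2⟩
      refine ⟨βE, ?_, hNb n _ ?_⟩
      · intro h
        exact hβ0 (Subtype.ext (congrArg Subtype.val h))
      · have h0 := hnf s (by rw [hKfix]; exact hsH) (by rw [hLfix]; exact hsN) βE
        have h1 : ((aK / Algebra.norm K βE : K) : Qb) =
            ∏ i ∈ Finset.range p, (s ^ i) ((b : Qb) / (β' : Qb)) := by
          have h2 : ((aK / Algebra.norm K βE : K) : Qb) =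
              (a : Qb) / algebraMap K Qb (Algebra.norm K βE) := by
            push_cast
            rfl
          rw [h2, h0, hab, ← Finset.prod_div_distrib]
          exact Finset.prod_congr rfl fun i _ => (map_div₀ _ _ _).symm
        rw [h1]
        exact NearA.prod _ _ fun i _ => hy.map_dec (pow_mem hsD i)
    · push Not at hs
      have hsplit := hS GQ p HH NN (Dec A) s₀ hp hNH hnorm hs0H hs0p hgen
        (fun s hsD hsH => hs s hsD hsH)
      obtain ⟨y, hy0, hy⟩ := hA K E A q hq hAq
        (fun d hd hdK x hx => by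
          have h1 : d ∈ L.fixingSubgroup := by
            rw [hLfix]
            exact hsplit d hd (by rw [← hKfix]; exact hdK)
          exact (IntermediateField.mem_fixingSubgroup_iff L d).1 h1 x
            ((IntermediateField.mem_extendScalars hKL).1 hx))
        ⟨(a : Qb), (IntermediateField.mem_extendScalars hKL).2 (hKL haK)⟩
        (by intro h; exact a.ne_zero (congrArg Subtype.val h)) n
      refine ⟨y, hy0, hNb n _ ?_⟩
      have h2 : ((aK / Algebra.norm K y : K) : Qb) =
          (a : Qb) / algebraMap K Qb (Algebra.norm K y) := by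
        push_cast
        rfl
      rw [h2]
      exact hy
  obtain ⟨β, hβ⟩ := hH p K E hp hdeg hTC aK haK0 hlocal
  have hβ0 : (β : Qb) ≠ 0 := by
    intro h
    have h1 : β = 0 := Subtype.ext h
    rw [h1, Algebra.norm_zero] at hβ
    exact haK0 hβ.symm
  refine ⟨Units.mk0 (β : Qb) hβ0, ?_, ?_⟩
  · intro n hn
    have h1 : (β : Qb) ∈ L := (IntermediateField.mem_extendScalars hKL).1 β.2
    rw [hL, IntermediateField.mem_fixedField_iff] at h1
    exact h1 n hn
  · have h0 := hnf s₀ (by rw [hKfix]; exact hs0H) (by rw [inv_mul_cancel]; exact one_mem _) β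
    rw [hβ] at h0
    exact h0

end Fermat.Agent.CFT.HNQ
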