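/-
TEAM CFT, block [HNQ], package Q2a (helper97): every `L`-embedding of `E` into `ℚ̄` is induced by an
element of `Gal(ℚ̄/L)`.
-/
import Fermat.Agent.CFT.HNQ.Interface

set_option autoImplicit false

noncomputable section

namespace Fermat.Agent.CFT.HNQ

open NumberField IsDedekindDomain Fermat.Agent.CFT.Top Fermat.Agent.CFT.GN Fermat.Agent.CFT.HNT
  Fermat.Agent.CFT.HPG

/-- Q2a. -/
theorem liftEmb : Stmt_LiftEmb := by
  intro L E σ
  have hA0 : Algebra.IsAlgebraic ℚ Qb := AlgebraicClosure.isAlgebraic ℚ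
  have hA : Algebra.IsAlgebraic L Qb := Algebra.IsAlgebraic.tower_top (K := ℚ) L
  have hC : IsAlgClosure L Qb := ⟨inferInstance, hA⟩
  have hN : Normal L Qb := IsAlgClosure.normal L Qb
  let τ : Qb →ₐ[L] Qb := AlgHom.liftNormal σ Qb
  have hτ : ∀ x : E, τ (algebraMap E Qb x) = σ x := fun x => by
    have := AlgHom.liftNormal_commutes σ Qb x
    simpa using this
  have hb : Function.Bijective τ := Algebra.IsAlgebraic.algHom_bijective τ
  let g' : Qb ≃ₐ[L] Qb := AlgEquiv.ofBijective τ hb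
  refine ⟨g'.restrictScalars ℚ, ?_, fun x => ?_⟩
  · rw [IntermediateField.mem_fixingSubgroup_iff]
    intro x hx
    exact g'.commutes ⟨x, hx⟩
  · exact hτ x

end Fermat.Agent.CFT.HNQ

end
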