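/-
TEAM CFT -> S55, block [HNQ], package Q1 (helper38): dictionary `HNT.Near v` <-> `NearA A`, and
stability of `NearA` under inverses.
-/
import Fermat.Agent.CFT.HNQ.Interface
import Fermat.Agent.CFT.GN.DictAB

set_option autoImplicit false

noncomputable section

namespace Fermat.Agent.CFT.HNQ

open NumberField IsDedekindDomain Fermat.Agent.CFT.Top Fermat.Agent.CFT.GN Fermat.Agent.CFT.HNT
  Fermat.Agent.CFT.HPG

/-- an element `< 1` of `ℤᵐ⁰` is `≤ exp (-1)`. -/
lemma NearDict_le_exp (x : WithZero (Multiplicative ℤ)) (h : x < 1) :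
    x ≤ WithZero.exp (-1 : ℤ) := by
  by_cases hx : x = 0
  · rw [hx]; exact zero_le
  · obtain ⟨n, rfl⟩ : ∃ n : ℤ, x = WithZero.exp n := ⟨WithZero.log x, (WithZero.exp_log hx).symm⟩
    rw [← WithZero.exp_zero, WithZero.exp_lt_exp] at h
    rw [WithZero.exp_le_exp]
    omega

/-- a nonzero element of `ℤᵐ⁰` is `≥ exp (-m)` for some natural `m`. -/
lemma NearDict_exists_exp_le (x : WithZero (Multiplicative ℤ)) (hx : x ≠ 0) :
    ∃ m : ℕ, WithZero.exp (-(m : ℤ)) ≤ x := by
  obtain ⟨n, rfl⟩ : ∃ n : ℤ, x = WithZero.exp n := ⟨WithZero.log x, (WithZero.exp_log hx).symm⟩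
  refine ⟨(-n).toNat, ?_⟩
  rw [WithZero.exp_le_exp]
  omega

/-- Q1. -/
theorem nearDict : Stmt_NearDict := by
  intro k _ A v q hq hA hAv
  have hq0 : (q : k) ≠ 0 := by exact_mod_cast hq.ne_zero
  have hA' : (q : Qb) ∈ A.nonunits := hA
  have h1 : (q : 𝓞 k) ∈ v.asIdeal := (hAv q).2 (by simpa using hA')
  have h2 : v.valuation k (q : k) < 1 := by
    have := (HeightOneSpectrum.valuation_lt_one_iff_mem (K := k) v (q : 𝓞 k)).2 h1
    simpa using this
  have h3 : v.valuation k (q : k) ≤ WithZero.exp (-1 : ℤ) := NearDict_le_exp _ h2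
  constructor
  · intro n
    have hc : v.valuation k ((q : k) ^ n) ≠ 0 := by
      rw [Ne, map_eq_zero]
      exact pow_ne_zero _ hq0
    obtain ⟨m, hm⟩ := NearDict_exists_exp_le _ hc
    refine ⟨m, fun x hx => ?_⟩
    have h4 : v.valuation k ((x - 1) / (q : k) ^ n) ≤ 1 := by
      rw [map_div₀]
      exact div_le_one_of_le₀ (le_trans hx hm) zero_le
    refine ⟨(((x - 1) / (q : k) ^ n : k) : Qb), (dictB k A v hAv _).1 h4, ?_⟩
    have h5 : x - 1 = (q : k) ^ n * ((x - 1) / (q : k) ^ n) := by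
      field_simp
    have := congrArg (algebraMap k Qb) h5
    simpa using this
  · rintro n x ⟨t, ht, hxt⟩
    have hq0' : (q : Qb) ≠ 0 := by exact_mod_cast hq.ne_zero
    have h4 : (((x - 1) / (q : k) ^ n : k) : Qb) = t := by
      have : (((x - 1) / (q : k) ^ n : k) : Qb) = ((x : Qb) - 1) / (q : Qb) ^ n := by
        simp
      rw [this, hxt]
      field_simp
    have h5 : v.valuation k ((x - 1) / (q : k) ^ n) ≤ 1 := by
      rw [dictB k A v hAv, h4]
      exact ht
    have h6 : x - 1 = (q : k) ^ n * ((x - 1) / (q : k) ^ n) := by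
      field_simp
    unfold Near
    rw [h6, map_mul, map_pow]
    calc v.valuation k (q : k) ^ n * v.valuation k ((x - 1) / (q : k) ^ n)
        ≤ WithZero.exp (-1 : ℤ) ^ n * 1 := mul_le_mul' (pow_le_pow_left₀ zero_le h3 n) h5
      _ = WithZero.exp (-(n : ℤ)) := by
        rw [mul_one, ← WithZero.exp_nsmul]
        congr 1
        simp

/-- Q1'. -/
theorem nearInv : Stmt_NearInv := by
  rintro A q n hA x ⟨t, ht, hxt⟩
  have hq1 : A.valuation (q : Qb) < 1 := A.mem_nonunits_iff.1 hA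
  have ht1 : A.valuation t ≤ 1 := (A.valuation_le_one_iff _).2 ht
  have h1 : A.valuation (x - 1) < 1 := by
    rw [hxt, map_mul, map_pow]
    calc A.valuation (q : Qb) ^ (n + 1) * A.valuation t
        ≤ A.valuation (q : Qb) ^ (n + 1) * 1 := mul_le_mul_right ht1 _
      _ < 1 := by
        rw [mul_one]
        exact pow_lt_one₀ zero_le hq1 (Nat.succ_ne_zero n)
  have h2 : A.valuation x = 1 := by
    have h3 : A.valuation (x - 1) < A.valuation (1 : Qb) := by rwa [map_one]
    have := Valuation.map_add_eq_of_lt_left A.valuation h3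
    rwa [add_sub_cancel, map_one] at this
  have hx0 : x ≠ 0 := by
    intro h
    rw [h, map_zero] at h2
    exact zero_ne_one h2
  have hxi : x⁻¹ ∈ A := by
    rw [← A.valuation_le_one_iff, map_inv₀, h2, inv_one]
  refine ⟨-(t * x⁻¹), A.neg_mem _ (A.mul_mem _ _ ht hxi), ?_⟩
  have h4 : x⁻¹ - 1 = -((x - 1) * x⁻¹) := by
    field_simp
    ring
  rw [h4, hxt]
  ring

end Fermat.Agent.CFT.HNQ

end
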