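/-
TEAM CFT -> S55, block [HNQ], packages Q5 and Q6: open subgroups of `G_ℚ` are the Galois groups of
number fields (`openFix`); a group lemma on cyclic quotients of prime order (`grpSplit`).
-/
import Fermat.Agent.CFT.HNQ.Interface

set_option autoImplicit false

namespace Fermat.Agent.CFT.HNQ

open Fermat.Agent.CFT.Top Fermat.Agent.CFT.GN

lemma OpenFix_isGalois_Qb : IsGalois ℚ Qb := by
  have : Algebra.IsAlgebraic ℚ (AlgebraicClosure ℚ) := AlgebraicClosure.isAlgebraic ℚ
  have : IsAlgClosure ℚ (AlgebraicClosure ℚ) := ⟨inferInstance, inferInstance⟩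
  have : Normal ℚ (AlgebraicClosure ℚ) := IsAlgClosure.normal ℚ (AlgebraicClosure ℚ)
  exact ⟨⟩

theorem openFix : Stmt_OpenFix := by
  rintro N ⟨F, hF, hle⟩
  have := OpenFix_isGalois_Qb
  have hopen : IsOpen (N : Set GQ) := Subgroup.isOpen_mono hle F.fixingSubgroup_isOpen
  have hclosed : IsClosed (N : Set GQ) := Subgroup.isClosed_of_isOpen N hopen
  refine ⟨?_, InfiniteGalois.fixingSubgroup_fixedField ⟨N, hclosed⟩⟩
  have hle' : IntermediateField.fixedField N ≤ F := by
    have h1 : IntermediateField.fixedField N ≤ IntermediateField.fixedField F.fixingSubgroup :=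
      IntermediateField.fixedField_antitone hle
    rwa [InfiniteGalois.fixedField_fixingSubgroup] at h1
  exact FiniteDimensional.of_injective (IntermediateField.inclusion hle').toLinearMap
    (IntermediateField.inclusion_injective hle')

theorem grpSplit : Stmt_GrpSplit := by
  intro G _ p HH NN D s₀ hp hle hnorm hs₀ hs₀p hgen hno d hdD hdH
  have hN : (NN.subgroupOf HH).Normal := by
    constructor
    intro n hn g
    rw [Subgroup.mem_subgroupOf] at hn ⊢
    exact hnorm g g.2 n hn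
  let π := QuotientGroup.mk' (NN.subgroupOf HH)
  have hπ : ∀ x y : HH, π x = π y ↔ (x : G)⁻¹ * y ∈ NN := by
    intro x y
    rw [QuotientGroup.mk'_apply, QuotientGroup.mk'_apply, QuotientGroup.eq,
      Subgroup.mem_subgroupOf]
    rfl
  have hπ1 : ∀ x : HH, π x = 1 ↔ (x : G) ∈ NN := by
    intro x
    rw [QuotientGroup.mk'_apply, QuotientGroup.eq_one_iff, Subgroup.mem_subgroupOf]
  obtain ⟨i, hi⟩ := hgen d hdH
  have h1 : π ⟨d, hdH⟩ = π ⟨s₀, hs₀⟩ ^ i := by
    rw [← map_pow, eq_comm, hπ]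
    exact hi
  have h2 : π ⟨s₀, hs₀⟩ ^ p = 1 := by
    rw [← map_pow, hπ1]
    exact hs₀p
  by_cases hpi : p ∣ i
  · obtain ⟨m, rfl⟩ := hpi
    rw [pow_mul, h2, one_pow, hπ1] at h1
    exact h1
  · exfalso
    have hcop : Nat.Coprime i p := ((Nat.Prime.coprime_iff_not_dvd hp).2 hpi).symm
    obtain ⟨j, -, hj⟩ := Nat.exists_mul_mod_eq_one_of_coprime hcop hp.one_lt
    have h3 : π ((⟨d, hdH⟩ : HH) ^ j) = π ⟨s₀, hs₀⟩ := by
      rw [map_pow, h1, ← pow_mul, ← Nat.div_add_mod (i * j) p, hj, pow_add, pow_mul, h2, one_pow,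
        one_mul, pow_one]
    exact hno (d ^ j) (D.pow_mem hdD j) (HH.pow_mem hdH j) ((hπ _ _).1 h3.symm)

end Fermat.Agent.CFT.HNQ
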