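/-
TEAM CFT -> S55, block [HNQ], package Q2b (helper50, task 763): if `A` and `g⁻¹ A` induce the same
place of `Z` then `g ∈ D_A · Gal(ℚ̄/Z)`.
-/
import Fermat.Agent.CFT.HNQ.Interface
import Fermat.Agent.CFT.GN.DictD

set_option autoImplicit false

namespace Fermat.Agent.CFT.HNQ

open NumberField IsDedekindDomain Fermat.Agent.CFT.Top Fermat.Agent.CFT.GN Fermat.Agent.CFT.HNT
  Fermat.Agent.CFT.HPG

theorem sep : Stmt_Sep := by
  intro Z _ A g v hA hgA
  obtain ⟨u, hu, h⟩ := dictD Z (twA A g) A v hgA hA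
  refine ⟨u, hu, (mem_dec_iff' A (u * g⁻¹)).2 fun y => ?_⟩
  have h1 := h (g⁻¹ y)
  rw [mem_twA] at h1
  have h2 : g (g⁻¹ y) = y := by
    show (g * g⁻¹) y = y
    rw [mul_inv_cancel]
    rfl
  rw [h2] at h1
  exact h1

end Fermat.Agent.CFT.HNQ
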