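/-
TEAM CFT -> S55, block [HNQ], package Q4: a number field containing `μ_p`, `p` odd, is totally
complex.
-/
import Fermat.Agent.CFT.HNQ.Interface

set_option autoImplicit false

noncomputable section

namespace Fermat.Agent.CFT.HNQ

open NumberField IsDedekindDomain Fermat.Agent.CFT.Top Fermat.Agent.CFT.GN Fermat.Agent.CFT.HNT
  Fermat.Agent.CFT.HPG

theorem totCplx : Stmt_TotCplx := by
  intro p K _ ζ hp hp2 hζ hζK
  refine ⟨fun w => ?_⟩
  rw [← InfinitePlace.not_isReal_iff_isComplex]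
  intro hw
  have hodd : Odd p := hp.odd_of_ne_two hp2
  have hφ : ComplexEmbedding.IsReal w.embedding := InfinitePlace.isReal_iff.1 hw
  have hζ' : IsPrimitiveRoot (⟨ζ, hζK⟩ : K) p :=
    IsPrimitiveRoot.of_map_of_injective (f := algebraMap K Qb) hζ (algebraMap K Qb).injective
  have hz : IsPrimitiveRoot (w.embedding ⟨ζ, hζK⟩) p :=
    hζ'.map_of_injective w.embedding.injective
  set z : ℂ := w.embedding ⟨ζ, hζK⟩ with hzdef
  have hconj : (starRingEnd ℂ) z = z := RingHom.congr_fun hφ _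
  obtain ⟨r, hr⟩ := Complex.conj_eq_iff_real.1 hconj
  have hrp : r ^ p = 1 := by
    have h1 : z ^ p = 1 := hz.pow_eq_one
    rw [hr] at h1
    exact_mod_cast h1
  have hr1 : r = 1 := by
    have h2 : r ^ p = 1 ^ p := by rw [hrp, one_pow]
    exact hodd.strictMono_pow.injective h2
  have hz1 : z = 1 := by rw [hr, hr1]; simp
  have := hz.dvd_of_pow_eq_one 1 (by rw [pow_one, hz1])
  exact hp.one_lt.ne' (Nat.dvd_one.1 this)

end Fermat.Agent.CFT.HNQ

end
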