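/-
TEAM CFT -> S55, block [HNQ], package Q2c (helper19): weak approximation in `A`-adic form.
-/
import Fermat.Agent.CFT.HNQ.Interface
import Fermat.Agent.CFT.GN.DictAB
import Fermat.Agent.CFT.HNT.WeakApprox

set_option autoImplicit false

noncomputable section

namespace Fermat.Agent.CFT.HNQ

open NumberField IsDedekindDomain Fermat.Agent.CFT.Top Fermat.Agent.CFT.GN Fermat.Agent.CFT.HNT
  Fermat.Agent.CFT.HPG

theorem WeakA_mem_nonunits_iff (A : ValuationSubring Qb) (x : Qb) :
    x ∈ A.nonunits ↔ x = 0 ∨ x⁻¹ ∉ A := by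
  rw [ValuationSubring.mem_nonunits_iff]
  rcases eq_or_ne x 0 with rfl | hx
  · simp
  · rw [← ValuationSubring.valuation_le_one_iff, map_inv₀, or_iff_right hx,
      inv_le_one₀ (zero_lt_iff.mpr ((Valuation.ne_zero_iff _).mpr hx)), not_le]

theorem WeakA_mem_nonunits_twA (A : ValuationSubring Qb) (g : GQ) (x : Qb) :
    x ∈ (twA A g).nonunits ↔ g x ∈ A.nonunits := by
  rw [WeakA_mem_nonunits_iff, WeakA_mem_nonunits_iff, mem_twA, map_inv₀]
  simp

theorem WeakA_liesOver {A : ValuationSubring Qb} {q : ℕ} (h : A.LiesOverPrime q) (g : GQ) :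
    (twA A g).LiesOverPrime q := by
  show (q : Qb) ∈ (twA A g).nonunits
  rw [WeakA_mem_nonunits_twA, map_natCast]
  exact h

theorem weakA (h1 : Stmt_NearDict) : Stmt_WeakA := by
  classical
  intro Z _ A q hq hA ι _ g hg z hz n
  have := Fintype.ofFinite ι
  obtain ⟨v0, hv0⟩ := (dictA Z).2.1 A q hq hA
  have hex : ∀ i, ∃ v : Pl Z, Over (twA A (g i)) v := fun i =>
    (dictA Z).2.1 (twA A (g i)) q hq (WeakA_liesOver hA (g i))
  choose v hv using hex
  have hne : ∀ i, v i ≠ v0 := by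
    intro i h
    exact hg i v0 hv0 (h ▸ hv i)
  obtain ⟨m0, hm0⟩ := (h1 Z A v0 q hq hA hv0).1 n
  have hexm : ∀ i, ∃ m : ℕ, ∀ x : Z, Near (v i) m x → NearA (twA A (g i)) q n (x : Qb) := fun i =>
    (h1 Z (twA A (g i)) (v i) q hq (WeakA_liesOver hA (g i)) (hv i)).1 n
  choose m hm using hexm
  obtain ⟨y, hy0, hy⟩ := weakApprox Z (insert v0 (Finset.univ.image v))
    (fun w => if w = v0 then z else 1)
    (by
      intro w _
      by_cases hw : w = v0
      · simpa [hw] using hz
      · simp [hw])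
    (m0 + Finset.univ.sup m)
  refine ⟨y, hy0, ?_, ?_⟩
  · have h2 := hy v0 (Finset.mem_insert_self _ _)
    rw [if_pos rfl] at h2
    have h3 := hm0 _ (h2.mono (Nat.le_add_right _ _))
    simpa using h3
  · intro i
    have h2 := hy (v i) (Finset.mem_insert_of_mem (Finset.mem_image_of_mem v (Finset.mem_univ i)))
    rw [if_neg (hne i), div_one] at h2
    have hle : m i ≤ m0 + Finset.univ.sup m :=
      le_trans (Finset.le_sup (f := m) (Finset.mem_univ i)) (Nat.le_add_left _ _)
    exact nearA_twA.1 (hm i _ (h2.mono hle))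

end Fermat.Agent.CFT.HNQ

end
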