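/-
TEAM CFT -> S55, block [HNQ] (helper73): `HPG.Stmt_LayerNorm`, unconditionally.
-/
import Fermat.Agent.CFT.HNQ.LayerNorm
import Fermat.Agent.CFT.HNQ.NearDict
import Fermat.Agent.CFT.HNQ.LiftEmb
import Fermat.Agent.CFT.HNQ.Sep
import Fermat.Agent.CFT.HNQ.WeakA
import Fermat.Agent.CFT.HNQ.ApproxNorm
import Fermat.Agent.CFT.HNQ.GalDict
import Fermat.Agent.CFT.HNQ.TotCplx
import Fermat.Agent.CFT.HNQ.OpenFix
import Fermat.Agent.CFT.HNT.Final

set_option autoImplicit false

namespace Fermat.Agent.CFT.HNQ

/-- the approximation lemma, unconditionally. -/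
theorem all_approxNorm : Stmt_ApproxNorm := approxNorm liftEmb sep (weakA nearDict) nearInv

/-- **(LayerNorm)**, the arithmetic half of the layer step of the Hasse principle, unconditionally. -/
theorem all_layerNorm : HPG.Stmt_LayerNorm :=
  layerNorm nearDict all_approxNorm galDict totCplx openFix grpSplit HNT.all_hntU

end Fermat.Agent.CFT.HNQ
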